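import Mathlib
import Fermat.Prelude.Def_GaloisRep_Flat
import Fermat.Agent.S56x.GW.Interface
import Fermat.Agent.S56x.Dict.Ad0Rep

/-!
# P-S56: the contract between block (A) LOCAL FLAT and block (C) ASSEMBLY

Formalism = `S56x/GW/Interface.lean` (block (B)) + `S56x/Dict/Ad0Rep.lean` (block (C)):
`M = ad0Rep p rbar`, local group at `p` = `primeLocalToGlobal (pPrime p)`.

* `locClassAt q c htr` : the localisation at the prime `q` of the class of a trace-zero tangent
  cocycle `c` (an element of the abstract `H¹` of the local group).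
* `LpFlat hrbar` : the `ZMod p`-span of the localisations at `p` of all trace-zero tangent
  cocycles whose lift to `k[ε]` is flat at `p`.  Containment (A2) holds by definition
  (`locClassAt_mem_LpFlat`).
* `FlatCountStatement p` : **(A1)**, the statement block (A) owes:
  `dim LpFlat ≤ h⁰(G_p, ad⁰ ρbar) + [k : F_p]`.
* `LpFlatContinuousStatement p` : `LpFlat ≤ H¹_cont` (generic continuity of localised classes;
  owed by `Dict/SelMember`).
-/

set_option autoImplicit false
set_option linter.unusedSectionVars false

open CategoryTheory groupCohomology ExtCitation Module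

noncomputable section

namespace Fermat.Agent.S56x.A

open Fermat.Agent.S56x.GW Fermat.Agent.S56x.Dict Fermat.Agent.S53

local notation "Γℚ" => (AlgebraicClosure ℚ ≃ₐ[ℚ] AlgebraicClosure ℚ)
local notation "M₂" => Matrix (Fin 2) (Fin 2)

variable {k : Type} [Field k] {p : ℕ} [Fact p.Prime] [Algebra (ZMod p) k]

/-- The localisation at the prime `q` of the class of a trace-zero tangent cocycle. -/
def locClassAt {rbar : Γℚ →* M₂ k} (q : Nat.Primes) (c : TanCocycle rbar)
    (htr : ∀ σ, (c.c σ).trace = 0) :
    H1 (Rep.res (primeLocalToGlobal q) (ad0Rep p rbar)) :=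
  (locRes (fun q : Nat.Primes => primeLocalToGlobal q) (ad0Rep p rbar) q).hom
    (c.toClass (p := p) htr)

/-- The span of the localisations at `p` of the classes of all trace-zero tangent cocycles whose
lift to the dual numbers is flat at `p`. -/
def LpFlat {rbar : Γℚ →* M₂ k} (hrbar : GaloisFactorsThroughFiniteLevel rbar) :
    Submodule (ZMod p) (H1 (Rep.res (primeLocalToGlobal (pPrime p)) (ad0Rep p rbar))) :=
  Submodule.span (ZMod p)
    {x | ∃ (c : TanCocycle rbar) (htr : ∀ σ, (c.c σ).trace = 0),
      (c.lift hrbar).IsFlatAt p ∧ x = locClassAt (p := p) (pPrime p) c htr}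

/-- **(A2)** containment, by definition. -/
theorem locClassAt_mem_LpFlat {rbar : Γℚ →* M₂ k}
    (hrbar : GaloisFactorsThroughFiniteLevel rbar) (c : TanCocycle rbar)
    (htr : ∀ σ, (c.c σ).trace = 0) (hflat : (c.lift hrbar).IsFlatAt p) :
    locClassAt (p := p) (pPrime p) c htr ∈ LpFlat (p := p) hrbar :=
  Submodule.subset_span ⟨c, htr, hflat, rfl⟩

variable (p)

/-- **(A1)** the flat local count at `p`: what block (A) owes block (C).
Hypotheses = everything the frozen S56 provides about `ρbar` at `p`:
`p` odd, `k` finite of characteristic `p`, `det rbar` = mod `p` cyclotomic character. -/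
def FlatCountStatement : Prop :=
  ∀ (k : Type) [Field k] [Finite k] [Algebra (ZMod p) k], p ≠ 2 →
    ∀ (rbar : Γℚ →* M₂ k) (hrbar : GaloisFactorsThroughFiniteLevel rbar),
      (∀ σ : Γℚ, (rbar σ).det = algebraMap (ZMod p) k ((cycloChar p σ : (ZMod p)ˣ) : ZMod p)) →
      finrank (ZMod p) (LpFlat (p := p) hrbar) ≤
        finrank (ZMod p)
          (Rep.res (primeLocalToGlobal (pPrime p)) (ad0Rep p rbar)).ρ.invariants +
        finrank (ZMod p) k

/-- Continuity of the localised classes (generic; `Dict/SelMember`). -/
def LpFlatContinuousStatement : Prop :=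
  ∀ (k : Type) [Field k] [Finite k] [Algebra (ZMod p) k]
    (rbar : Γℚ →* M₂ k) (hrbar : GaloisFactorsThroughFiniteLevel rbar),
      LpFlat (p := p) hrbar ≤
        continuousH1 (primeLocalToGlobal (pPrime p))
          (Rep.res (primeLocalToGlobal (pPrime p)) (ad0Rep p rbar))

end Fermat.Agent.S56x.A

end
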