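import Mathlib
import Fermat.Agent.S56x.A.Interface
import Fermat.Agent.S56x.Local.FlatSel

/-!
# P-S56: the (A)→(C) contract `S56x/A/Interface` from block (A)'s `Local/FlatIface`

`S56x/A/Interface.lean` states what block (C) consumes (`A.FlatCountStatement p`,
`A.LpFlatContinuousStatement p`); block (A) proves `Local.FlatIface.FlatCountStatement p rbar`
(`rank_k flatSpan ≤ 4`).  `Local/FlatSel.lean` is the bridge for one `rbar`; this file packages it
in the literal shape of the contract:

* `LpFlat_eq_flatSel` : the two definitions of `LpFlat` agree;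
* `lpFlatContinuousStatement : A.LpFlatContinuousStatement p` (unconditional);
* `detIsCycloModP_of_det_eq_cycloChar` : `det rbar = cycloChar p` gives `FlatIface.DetIsCycloModP`;
* `flatCountStatement_of_iface` : `(∀ k rbar, FlatIface.FlatCountStatement p rbar) →
  A.FlatCountStatement p`.
-/

set_option autoImplicit false
set_option linter.unusedSectionVars false

open CategoryTheory groupCohomology ExtCitation Module

noncomputable section

namespace Fermat.Agent.S56x.A

open Fermat.Agent.S56x.GW Fermat.Agent.S56x.Dict Fermat.Agent.S53 Fermat.Agent.S56x.Local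

local notation "Γℚ" => (AlgebraicClosure ℚ ≃ₐ[ℚ] AlgebraicClosure ℚ)
local notation "M₂" => Matrix (Fin 2) (Fin 2)

variable {k : Type} [Field k] (p : ℕ) [Fact p.Prime] [Algebra (ZMod p) k]

/-- The two definitions of the flat local condition at `p` agree. -/
theorem LpFlat_eq_flatSel {rbar : Γℚ →* M₂ k} (hrbar : GaloisFactorsThroughFiniteLevel rbar) :
    LpFlat (p := p) hrbar = FlatSel.LpFlat p rbar hrbar := by
  unfold LpFlat FlatSel.LpFlat
  congr 1
  ext x
  constructor
  · rintro ⟨c, htr, hflat, rfl⟩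
    exact ⟨c, ⟨htr, hflat⟩, rfl⟩
  · rintro ⟨c, hc, rfl⟩
    exact ⟨c, hc.1, hc.2, rfl⟩

/-- **`LpFlatContinuousStatement`** holds. -/
theorem lpFlatContinuousStatement : LpFlatContinuousStatement p := by
  intro k _ _ _ rbar hrbar
  rw [LpFlat_eq_flatSel]
  exact FlatSel.LpFlat_le p rbar hrbar

/-- `CharP k p` from the `ZMod p`-algebra structure. -/
theorem charP_of_algebra_zmod : CharP k p :=
  (RingHom.charP_iff (algebraMap (ZMod p) k) (algebraMap (ZMod p) k).injective p).mp inferInstance

/-- If `σ` acts on the `p`-th roots of unity by `μ ↦ μ ^ a` then `a = cycloChar p σ` in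
`ZMod p`. -/
theorem natCast_eq_cycloChar (σ : Γℚ) (a : ℕ)
    (ha : ∀ μ : AlgebraicClosure ℚ, μ ^ p = 1 → σ μ = μ ^ a) :
    (a : ZMod p) = ((cycloChar p σ : (ZMod p)ˣ) : ZMod p) := by
  have : NeZero p := ⟨(Fact.out : p.Prime).ne_zero⟩
  change (a : ZMod p) = ((modularCyclotomicCharacter (AlgebraicClosure ℚ)
    (card_rootsOfUnity_eq_self p) (σ : AlgebraicClosure ℚ ≃+* AlgebraicClosure ℚ) : (ZMod p)ˣ) :
      ZMod p)
  refine modularCyclotomicCharacter.unique (AlgebraicClosure ℚ) (card_rootsOfUnity_eq_self p)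
    (σ : AlgebraicClosure ℚ ≃+* AlgebraicClosure ℚ) (c := (a : ZMod p)) ?_
  intro t ht
  have htp : ((t : (AlgebraicClosure ℚ)ˣ) : AlgebraicClosure ℚ) ^ p = 1 := by
    have := (mem_rootsOfUnity _ _).1 ht
    rw [← Units.val_pow_eq_pow_val, this, Units.val_one]
  have h1 := ha _ htp
  rw [ZMod.val_natCast]
  change σ (t : AlgebraicClosure ℚ) = _
  rw [h1]
  conv_lhs => rw [← Nat.mod_add_div a p]
  rw [pow_add, pow_mul, htp, one_pow, mul_one]

/-- `det rbar = cycloChar p` (the shape of `Assembly/Basics.det_rbarOf_eq_cycloChar`) gives block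
(A)'s hypothesis `FlatIface.DetIsCycloModP`. -/
theorem detIsCycloModP_of_det_eq_cycloChar (rbar : Γℚ →* M₂ k)
    (hdet : ∀ σ : Γℚ, (rbar σ).det =
      algebraMap (ZMod p) k ((cycloChar p σ : (ZMod p)ˣ) : ZMod p)) :
    FlatIface.DetIsCycloModP p rbar := by
  intro σ a ha
  rw [hdet σ, ← natCast_eq_cycloChar p σ a ha, map_natCast]

/-- **The contract `A.FlatCountStatement p`** from block (A)'s theorem
`FlatIface.FlatCountStatement p rbar` for all finite `k` and all `rbar`. -/
theorem flatCountStatement_of_iface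
    (hA : ∀ (k : Type) [Field k] [Finite k] [Algebra (ZMod p) k] (rbar : Γℚ →* M₂ k),
      FlatIface.FlatCountStatement p rbar) :
    FlatCountStatement p := by
  intro k _ _ _ hp2 rbar hrbar hdet
  have : CharP k p := charP_of_algebra_zmod p
  have : Module.Finite (ZMod p) k := Module.Finite.of_finite
  rw [LpFlat_eq_flatSel]
  exact FlatSel.finrank_LpFlat_le p rbar hrbar hp2
    (detIsCycloModP_of_det_eq_cycloChar p rbar hdet) (hA k rbar)

end Fermat.Agent.S56x.A
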